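import Mathlib
import Fermat.Prelude.Def_GaloisRep_Residual

/-!
# Row S59, cell LO, leaf ResFlat: base change along a field map (helper294)

For `φ : k →+* K` and a residual representation `ρ` over `k`:
* `exists_embedding_baseChangeAlong294`: `v ↦ 1 ⊗ v` is an injective equivariant additive map
  `ρ.V → (ρ.baseChangeAlong φ).V`;
* `det_baseChangeAlong294`: `det ((ρ.baseChangeAlong φ) σ) = φ (det (ρ σ))`.
-/

set_option autoImplicit false

open scoped TensorProduct

namespace Fermat.Agent.S59.H294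

/-- `v ↦ 1 ⊗ v` embeds `ρ` equivariantly in its base change along a field map. -/
theorem exists_embedding_baseChangeAlong294 {k K : Type} [Field k] [Field K] (φ : k →+* K)
    (ρ : ResidualGaloisRep k) :
    ∃ i : ρ.V →+ (ρ.baseChangeAlong φ).V, Function.Injective i ∧
      ∀ (σ : AlgebraicClosure ℚ ≃ₐ[ℚ] AlgebraicClosure ℚ) (v : ρ.V),
        i (ρ.ρ σ v) = (ρ.baseChangeAlong φ).ρ σ (i v) := by
  letI : Algebra k K := φ.toAlgebra
  refine ⟨(TensorProduct.mk k K ρ.V 1 : ρ.V →ₗ[k] K ⊗[k] ρ.V).toAddMonoidHom, ?_, ?_⟩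
  · exact Module.FaithfullyFlat.tensorProduct_mk_injective (A := k) (B := K) ρ.V
  · intro σ v
    show (1 : K) ⊗ₜ[k] (ρ.ρ σ v) = ((ρ.ρ σ).baseChange K) ((1 : K) ⊗ₜ[k] v)
    rw [LinearMap.baseChange_tmul]

/-- Determinants commute with base change along a field map. -/
theorem det_baseChangeAlong294 {k K : Type} [Field k] [Field K] (φ : k →+* K)
    (ρ : ResidualGaloisRep k) (σ : AlgebraicClosure ℚ ≃ₐ[ℚ] AlgebraicClosure ℚ) :
    LinearMap.det ((ρ.baseChangeAlong φ).ρ σ) = φ (LinearMap.det (ρ.ρ σ)) := by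
  letI : Algebra k K := φ.toAlgebra
  show LinearMap.det ((ρ.ρ σ).baseChange K) = algebraMap k K (LinearMap.det (ρ.ρ σ))
  exact LinearMap.det_baseChange (ρ.ρ σ)

end Fermat.Agent.S59.H294
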