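import Mathlib
import Fermat.Prelude.Def_GaloisRep_Flat
import Fermat.Agent.S59.H779.FlatSpec

/-!
# Row S59, cell LO, leaf ResFlat — transfer of Hopf models (helper294)

`isFlatAt_ofResidual_of_embedding294`: if `ρ_T` over a local ring `T` is flat at `p` and a residual
representation `ρ_E` (over any field `k` with finite residue field, e.g. `𝔽_p`) embeds
additively and Galois-equivariantly into the residual representation of `ρ_T`, then `ρ_E` is
flat at `p`.  (Closure of Hopf models under subquotients, `H779.HopfSubquotSpec`.)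
-/

set_option autoImplicit false

open IsLocalRing
open scoped TensorProduct

namespace Fermat.Agent.S59.H294

open Fermat.Agent.S59.H779 Fermat.Agent.S19

section

variable {p : ℕ} {T : Type} [CommRing T] [IsLocalRing T]

/-- `a ∈ 𝔪_T` kills `k_T ⊗ V`. -/
theorem one_tmul_eq_zero_of_mem294 (ρ : GaloisRepAdic T) (x : ρ.V)
    (hx : x ∈ (maximalIdeal T) • (⊤ : Submodule T ρ.V)) :
    (1 : ResidueField T) ⊗ₜ[T] x = 0 := by
  refine Submodule.smul_induction_on
    (p := fun x => (1 : ResidueField T) ⊗ₜ[T] x = (0 : ResidueField T ⊗[T] ρ.V)) hx ?_ ?_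
  · intro a ha w _
    rw [TensorProduct.tmul_smul, TensorProduct.smul_tmul', Algebra.smul_def,
      IsLocalRing.ResidueField.algebraMap_eq, (IsLocalRing.residue_eq_zero_iff a).mpr ha,
      zero_mul, TensorProduct.zero_tmul]
  · intro x y hx hy
    rw [TensorProduct.tmul_add, hx, hy, add_zero]

/-- The canonical map `V / 𝔪 V → k_T ⊗ V`. -/
noncomputable def quotToResidual294 (ρ : GaloisRepAdic T) :
    (ρ.V ⧸ ((maximalIdeal T) • (⊤ : Submodule T ρ.V))) →ₗ[T] (ResidueField T ⊗[T] ρ.V) :=
  Submodule.liftQ _ (TensorProduct.mk T (ResidueField T) ρ.V 1) (fun x hx => by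
    rw [LinearMap.mem_ker]
    exact one_tmul_eq_zero_of_mem294 ρ x hx)

theorem quotToResidual294_mk (ρ : GaloisRepAdic T) (v : ρ.V) :
    quotToResidual294 ρ (Submodule.Quotient.mk v) = (1 : ResidueField T) ⊗ₜ[T] v := rfl

theorem quotToResidual294_surjective (ρ : GaloisRepAdic T) :
    Function.Surjective (quotToResidual294 ρ) := by
  intro w
  induction w using TensorProduct.induction_on with
  | zero => exact ⟨0, map_zero _⟩
  | tmul c v =>
    obtain ⟨a, rfl⟩ := IsLocalRing.residue_surjective c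
    refine ⟨Submodule.Quotient.mk (a • v), ?_⟩
    rw [quotToResidual294_mk, TensorProduct.tmul_smul, TensorProduct.smul_tmul', Algebra.smul_def,
      IsLocalRing.ResidueField.algebraMap_eq, mul_one]
  | add x y hx hy =>
    obtain ⟨x', rfl⟩ := hx
    obtain ⟨y', rfl⟩ := hy
    exact ⟨x' + y', map_add _ _ _⟩

theorem quotToResidual294_equivariant (ρ : GaloisRepAdic T)
    (σ : AlgebraicClosure ℚ ≃ₐ[ℚ] AlgebraicClosure ℚ)
    (x : ρ.V ⧸ ((maximalIdeal T) • (⊤ : Submodule T ρ.V))) :
    quotToResidual294 ρ (ρ.levelAction (maximalIdeal T) σ x)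
      = ρ.residual.ρ σ (quotToResidual294 ρ x) := by
  obtain ⟨v, rfl⟩ := Submodule.Quotient.mk_surjective _ x
  show quotToResidual294 ρ (Submodule.Quotient.mk (ρ.ρ σ v))
    = (ρ.ρ σ).baseChange (ResidueField T) ((1 : ResidueField T) ⊗ₜ[T] v)
  rw [quotToResidual294_mk, LinearMap.baseChange_tmul]

/-- A flat `ρ` has a Hopf model on its residual representation. -/
theorem hopfModel_residual_of_isFlatAt294 (hSub : HopfSubquotSpec p) (ρ : GaloisRepAdic T)
    (hflat : ρ.IsFlatAt p) :
    HopfModel p ρ.residual.V (fun σ x => ρ.residual.ρ σ x) := by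
  have hfin : Finite (T ⧸ maximalIdeal T) := hflat.1
  have h0 : HopfModel p (ρ.V ⧸ ((maximalIdeal T) • (⊤ : Submodule T ρ.V)))
      (fun σ x => ρ.levelAction (maximalIdeal T) σ x) := hflat.2 (maximalIdeal T) hfin
  exact HopfModel.quotient hSub (quotToResidual294 ρ).toAddMonoidHom
    (quotToResidual294_surjective ρ) (fun σ x => quotToResidual294_equivariant ρ σ x) h0

end

/-- **Transfer.**  If `ρ_E` has a Hopf model, then `ofResidualGaloisRep ρ_E` is flat. -/
theorem isFlatAt_ofResidual_of_hopfModel294 {p : ℕ} (hSub : HopfSubquotSpec p)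
    {k : Type} [Field k] [Finite k] (ρE : ResidualGaloisRep k)
    (h : HopfModel p ρE.V (fun σ x => ρE.ρ σ x)) :
    (GaloisRepAdic.ofResidualGaloisRep ρE).IsFlatAt p := by
  refine ⟨?_, fun I _ => ?_⟩
  · exact Finite.of_surjective (IsLocalRing.residue k) IsLocalRing.residue_surjective
  · have hq : HopfModel p
        ((GaloisRepAdic.ofResidualGaloisRep ρE).V ⧸
          (I • (⊤ : Submodule k (GaloisRepAdic.ofResidualGaloisRep ρE).V)))
        (fun σ x => (GaloisRepAdic.ofResidualGaloisRep ρE).levelAction I σ x) :=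
      HopfModel.quotient hSub
        (Submodule.mkQ (I • (⊤ : Submodule k (GaloisRepAdic.ofResidualGaloisRep ρE).V))).toAddMonoidHom
        (Submodule.mkQ_surjective _) (fun σ x => rfl) h
    exact hq

/-- **ResFlat, transfer form.** -/
theorem isFlatAt_ofResidual_of_embedding294 {p : ℕ} (hSub : HopfSubquotSpec p)
    {T : Type} [CommRing T] [IsLocalRing T] (ρT : GaloisRepAdic T) (hflat : ρT.IsFlatAt p)
    {k : Type} [Field k] [Finite k] (ρE : ResidualGaloisRep k)
    (i : ρE.V →+ ρT.residual.V) (hi : Function.Injective i)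
    (hequiv : ∀ σ v, i (ρE.ρ σ v) = ρT.residual.ρ σ (i v)) :
    (GaloisRepAdic.ofResidualGaloisRep ρE).IsFlatAt p :=
  isFlatAt_ofResidual_of_hopfModel294 hSub ρE
    (HopfModel.sub hSub i hi hequiv (hopfModel_residual_of_isFlatAt294 hSub ρT hflat))

end Fermat.Agent.S59.H294
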