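import Mathlib
import Fermat.Prelude.Def_GaloisRep_Residual
import Fermat.Agent.S58.H273.AbsIrrOdd

/-!
# Row S59, cell LO, leaf ResFlat — absolute irreducibility after base change (helper294)

`absIrr_baseChangeAlong294`: an irreducible residual representation over `k` (`2 ≠ 0`) with an
involution of determinant `-1` stays absolutely irreducible after every base change `k → k'`.
-/

set_option autoImplicit false

open scoped TensorProduct

namespace Fermat.Agent.S59.H294

/-- Irreducible + odd ⇒ every base change is absolutely irreducible. -/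
theorem absIrr_baseChangeAlong294 {k k' : Type} [Field k] [Field k'] (ι : k →+* k')
    (h2 : (2 : k) ≠ 0) (ρ : ResidualGaloisRep k) (hirr : ρ.IsIrreducible)
    (c : AlgebraicClosure ℚ ≃ₐ[ℚ] AlgebraicClosure ℚ) (hc : c * c = 1)
    (hdet : LinearMap.det (ρ.ρ c) = -1) :
    (ρ.baseChangeAlong ι).IsAbsolutelyIrreducible := by
  letI : Algebra k k' := ι.toAlgebra
  have h2' : (2 : k') ≠ 0 := by
    intro h
    apply h2
    apply ι.injective
    rw [map_ofNat, h, map_zero]
  have hirr' : (ρ.baseChange k').IsIrreducible := fun L hL =>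
    Fermat.Agent.S58.H273.eq_bot_or_eq_top_of_involution h2 ρ.finrank_eq ρ.ρ hirr c hc hdet
      k' L hL
  have hdet' : LinearMap.det ((ρ.baseChange k').ρ c) = -1 := by
    have h1 : (ρ.baseChange k').ρ c = (ρ.ρ c).baseChange k' := rfl
    rw [h1, LinearMap.det_baseChange, hdet, map_neg, map_one]
  exact Fermat.Agent.S58.H273.absIrr_of_irr_of_involution h2' (ρ.baseChange k') hirr' c hc hdet'

end Fermat.Agent.S59.H294
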