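import Mathlib

/-!
# Row S59, cell LO, leaf ResUnram — linear algebra core (helper294)

`eq_one_of_unipotent_normal294`: a normal subgroup `H` of `G` acting on an irreducible
2-dimensional representation through unipotent operators acts trivially.
(No Brauer–Nesbitt: only the identity `(ρ(h h') - 1)² = 0`.)
-/

set_option autoImplicit false

namespace Fermat.Agent.S59.H294

variable {k V G : Type*} [Field k] [AddCommGroup V] [Module k V] [Group G]

/-- In a plane, if `N ≠ 0` and `N² = 0`, then `ker N` is spanned by any nonzero vector of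
the image. -/
theorem exists_smul_eq_of_sq_zero294 (hV : Module.finrank k V = 2) (N : Module.End k V)
    (hN2 : ∀ x, N (N x) = 0) (w : V) (hw : N w ≠ 0) (x : V) (hx : N x = 0) :
    ∃ a : k, x = a • N w := by
  classical
  have hfin : Module.Finite k V := Module.finite_of_finrank_eq_succ hV
  -- `N w`, `w` are linearly independent
  have hli : LinearIndependent k ![N w, w] := by
    rw [LinearIndependent.pair_iff]
    intro s t hst
    have h1 : t • N w = 0 := by
      have := congrArg N hst
      rw [map_add, map_smul, map_smul, hN2 w, smul_zero, zero_add, map_zero] at this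
      exact this
    have ht : t = 0 := by
      rcases smul_eq_zero.mp h1 with h | h
      · exact h
      · exact absurd h hw
    rw [ht, zero_smul, add_zero] at hst
    have hs : s = 0 := by
      rcases smul_eq_zero.mp hst with h | h
      · exact h
      · exact absurd h hw
    exact ⟨hs, ht⟩
  have hspan : Submodule.span k (Set.range ![N w, w]) = ⊤ :=
    hli.span_eq_top_of_card_eq_finrank' (by rw [hV]; rfl)
  have hx' : x ∈ Submodule.span k (Set.range ![N w, w]) := by rw [hspan]; trivial
  rw [Matrix.range_cons, Matrix.range_cons, Matrix.range_empty, Set.union_empty,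
    Set.singleton_union, Submodule.mem_span_pair] at hx'
  obtain ⟨a, b, hab⟩ := hx'
  have hb : b • N w = 0 := by
    have := congrArg N hab
    rw [map_add, map_smul, map_smul, hN2 w, smul_zero, zero_add, hx] at this
    exact this
  have hb0 : b = 0 := by
    rcases smul_eq_zero.mp hb with h | h
    · exact h
    · exact absurd h hw
  refine ⟨a, ?_⟩
  rw [← hab, hb0, zero_smul, add_zero]

/-- **Key computation.**  `N₀, N'` endomorphisms of a plane with `N₀² = N'² = 0`, `N₀ ≠ 0`, and
`(N₀ + N' + N₀ N')² = 0`.  Then `N'` kills `ker N₀`. -/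
theorem apply_eq_zero_of_sq_zero294 (hV : Module.finrank k V = 2) (N₀ N' : Module.End k V)
    (h0 : ∀ x, N₀ (N₀ x) = 0) (h1 : ∀ x, N' (N' x) = 0)
    (h01 : ∀ x, (N₀ + N' + N₀ * N') ((N₀ + N' + N₀ * N') x) = 0)
    (hne : N₀ ≠ 0) (x : V) (hx : N₀ x = 0) : N' x = 0 := by
  classical
  obtain ⟨w, hw⟩ : ∃ w, N₀ w ≠ 0 := by
    by_contra hcon
    exact hne (LinearMap.ext fun y => not_not.mp (not_exists.mp hcon y))
  set v := N₀ w with hv
  have hv0 : N₀ v = 0 := h0 w
  -- it suffices to treat `x = v`
  obtain ⟨a, rfl⟩ := exists_smul_eq_of_sq_zero294 hV N₀ h0 w hw x hx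
  suffices hu : N' v = 0 by rw [map_smul, hu, smul_zero]
  set u := N' v with hu
  have hNu : N' u = 0 := h1 v
  obtain ⟨c, hc⟩ : ∃ c : k, N₀ u = c • v :=
    exists_smul_eq_of_sq_zero294 hV N₀ h0 w hw (N₀ u) (h0 u)
  -- `M v = u + c v`
  have hMv : (N₀ + N' + N₀ * N') v = u + c • v := by
    rw [LinearMap.add_apply, LinearMap.add_apply, Module.End.mul_apply, hv0, ← hu, hc, zero_add]
  have hMu : (N₀ + N' + N₀ * N') u = c • v := by
    rw [LinearMap.add_apply, LinearMap.add_apply, Module.End.mul_apply, hNu, map_zero, hc,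
      add_zero, add_zero]
  have hM2 : (c + c * c) • v + c • u = 0 := by
    have h := h01 v
    rw [hMv, map_add, map_smul, hMu, hMv] at h
    rw [← h]
    module
  by_cases hc0 : c = 0
  · -- `u ∈ ker N₀`, so `u = a v`, and `N' v = a v` with `N'` nilpotent
    rw [hc0, zero_smul] at hc
    obtain ⟨b, hb⟩ := exists_smul_eq_of_sq_zero294 hV N₀ h0 w hw u hc
    have h2 : b • u = 0 := by
      have := hNu
      rw [hb, map_smul, ← hu] at this
      exact this
    rcases smul_eq_zero.mp h2 with h | h
    · rw [hb, h, zero_smul]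
    · exact h
  · exfalso
    -- `u = -(1 + c) v`, hence `N₀ u = 0`, hence `c v = 0`
    have hu' : u = (-(1 + c)) • v := by
      have h3 : c • (u + (1 + c) • v) = 0 := by
        rw [← hM2]
        module
      rcases smul_eq_zero.mp h3 with h | h
      · exact absurd h hc0
      · rw [neg_smul]
        exact eq_neg_of_add_eq_zero_left h
    have h4 : N₀ u = 0 := by rw [hu', map_smul, hv0, smul_zero]
    rw [h4] at hc
    rcases smul_eq_zero.mp hc.symm with h | h
    · exact hc0 h
    · exact hw h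

/-- **A normal subgroup acting unipotently on an irreducible plane acts trivially.** -/
theorem eq_one_of_unipotent_normal294 (hV : Module.finrank k V = 2) (ρ : G →* Module.End k V)
    (hirr : ∀ W : Submodule k V, (∀ (g : G), ∀ x ∈ W, ρ g x ∈ W) → W = ⊥ ∨ W = ⊤)
    (H : Subgroup G) [hHn : H.Normal]
    (hH : ∀ h ∈ H, ∀ x, (ρ h - 1) ((ρ h - 1) x) = 0) :
    ∀ h ∈ H, ρ h = 1 := by
  classical
  intro h₀ hh₀
  by_contra hne
  have hne' : ρ h₀ - 1 ≠ 0 := fun h => hne (sub_eq_zero.mp h)
  -- every element of `H` kills `ker (ρ h₀ - 1)`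
  have hkill : ∀ h' ∈ H, ∀ x, (ρ h₀ - 1) x = 0 → (ρ h' - 1) x = 0 := by
    intro h' hh' x hx
    refine apply_eq_zero_of_sq_zero294 hV (ρ h₀ - 1) (ρ h' - 1) (hH h₀ hh₀) (hH h' hh') ?_ hne' x hx
    have hprod : (ρ h₀ - 1) + (ρ h' - 1) + (ρ h₀ - 1) * (ρ h' - 1) = ρ (h₀ * h') - 1 := by
      rw [map_mul]
      noncomm_ring
    rw [hprod]
    exact hH (h₀ * h') (H.mul_mem hh₀ hh')
  -- so `ker (ρ h₀ - 1)` is stable
  have hstab : ∀ (g : G), ∀ x ∈ LinearMap.ker (ρ h₀ - 1), ρ g x ∈ LinearMap.ker (ρ h₀ - 1) := by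
    intro g x hx
    rw [LinearMap.mem_ker] at hx ⊢
    have hconj : g⁻¹ * h₀ * g ∈ H := by
      have := hHn.conj_mem h₀ hh₀ g⁻¹
      rwa [inv_inv] at this
    have h1 := hkill _ hconj x hx
    rw [LinearMap.sub_apply, Module.End.one_apply, sub_eq_zero, map_mul, map_mul,
      Module.End.mul_apply, Module.End.mul_apply] at h1
    -- `ρ g⁻¹ (ρ h₀ (ρ g x)) = x`
    have h2 : ρ g (ρ g⁻¹ (ρ h₀ (ρ g x))) = ρ h₀ (ρ g x) := by
      rw [← Module.End.mul_apply, ← map_mul, mul_inv_cancel, map_one, Module.End.one_apply]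
    rw [h1] at h2
    rw [LinearMap.sub_apply, Module.End.one_apply, ← h2, sub_self]
  rcases hirr _ hstab with hbot | htop
  · -- the kernel is nonzero
    obtain ⟨w, hw⟩ : ∃ w, (ρ h₀ - 1) w ≠ 0 := by
      by_contra hcon
      exact hne' (LinearMap.ext fun y => not_not.mp (not_exists.mp hcon y))
    have : (ρ h₀ - 1) w ∈ LinearMap.ker (ρ h₀ - 1) := by
      rw [LinearMap.mem_ker]
      exact hH h₀ hh₀ w
    rw [hbot, Submodule.mem_bot] at this
    exact hw this
  · exact hne' (LinearMap.ker_eq_top.mp htop)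

end Fermat.Agent.S59.H294
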