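import Mathlib
import Fermat.Prelude.Def_GaloisRep_Residual
import Fermat.Prelude.Def_FLTPrelim_ModularRep
import Fermat.Prelude.Def_FLTPrelim_Ramification
import Fermat.Agent.Lib.Cheb.Spec
import Fermat.Agent.S59.H294.UnipNormal

/-!
# Row S59, cell LO, leaf ResUnram — core (helper294)

Light closure (Mathlib + Prelude + `Lib/Cheb/Spec`): the residual representation `ρ_E` of a curve
`W` which is residually modular of level `M` is unramified at every prime `q ∤ p M`, given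
* Chebotarev (`Lib.Cheb.Spec.ChebotarevStatement`),
* the Frobenius characteristic polynomials of `ρ_E`,
* the residual representation attached to an eigenform (shape of the frozen S29).

Proof.  By Chebotarev `charpoly ρ_f(g) = ι (charpoly ρ_E(g))` for EVERY `g`; so `ker ρ_f` acts
on `ρ_E` through unipotent operators; `ker ρ_f` is normal and `ρ_E` is an irreducible plane, so
`ker ρ_f` acts trivially (`eq_one_of_unipotent_normal294`); the inertia groups at `q` lie in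
`ker ρ_f`.
-/

set_option autoImplicit false

open Polynomial

namespace Fermat.Agent.S59.H294

/-- `Gal(ℚ̄/ℚ)` -/
abbrev GQ294 : Type := AlgebraicClosure ℚ ≃ₐ[ℚ] AlgebraicClosure ℚ

/-- **Chebotarev step** for two residual representations: equality of the Frobenius
characteristic polynomials outside a finite set of primes gives equality everywhere. -/
theorem charpoly_eq_of_frob294 (hcheb : Fermat.Agent.Lib.Cheb.Spec.ChebotarevStatement)
    {k k' : Type} [Field k] [Field k'] (ι : k →+* k')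
    (ρ : ResidualGaloisRep k) (ρ' : ResidualGaloisRep k') (S : Finset ℕ)
    (h : ∀ ℓ : ℕ, ℓ.Prime → ℓ ∉ S →
      ∀ B : ValuationSubring (AlgebraicClosure ℚ), B.LiesOverPrime ℓ →
        ∀ σ : GQ294, B.IsFrobeniusAt σ ℓ →
          LinearMap.charpoly (ρ'.ρ σ) = (LinearMap.charpoly (ρ.ρ σ)).map ι)
    (g : GQ294) :
    LinearMap.charpoly (ρ'.ρ g) = (LinearMap.charpoly (ρ.ρ g)).map ι := by
  obtain ⟨L₁, hL₁, h₁⟩ := ρ'.factorsThroughFiniteLevel
  obtain ⟨L₂, hL₂, h₂⟩ := ρ.factorsThroughFiniteLevel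
  have := hL₁
  have := hL₂
  have hE : FiniteDimensional ℚ ↥(L₁ ⊔ L₂) := IntermediateField.finiteDimensional_sup L₁ L₂
  obtain ⟨ℓ, B, τ, hℓ, hℓS, hB, hτ, -, hτg⟩ := hcheb (L₁ ⊔ L₂) hE g S
  have hfix : ∀ x ∈ L₁ ⊔ L₂, (g⁻¹ * τ) x = x := by
    intro x hx
    rw [AlgEquiv.mul_apply, hτg x hx]
    exact g.symm_apply_apply x
  have e1 : ρ'.ρ τ = ρ'.ρ g := by
    have h := h₁ (g⁻¹ * τ) (fun x hx => hfix x ((le_sup_left : L₁ ≤ L₁ ⊔ L₂) hx))
    have h' : ρ'.ρ g * ρ'.ρ (g⁻¹ * τ) = ρ'.ρ g := by rw [h, mul_one]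
    rw [← map_mul, mul_inv_cancel_left] at h'
    exact h'
  have e2 : ρ.ρ τ = ρ.ρ g := by
    have h := h₂ (g⁻¹ * τ) (fun x hx => hfix x ((le_sup_right : L₂ ≤ L₁ ⊔ L₂) hx))
    have h' : ρ.ρ g * ρ.ρ (g⁻¹ * τ) = ρ.ρ g := by rw [h, mul_one]
    rw [← map_mul, mul_inv_cancel_left] at h'
    exact h'
  rw [← e1, ← e2]
  exact h ℓ hℓ hℓS B hB τ hτ

/-- The characteristic polynomial of the identity of a plane. -/
theorem charpoly_one_of_finrank_two294 {k : Type*} [Field k] {V : Type*} [AddCommGroup V]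
    [Module k V] [Module.Finite k V] (hV : Module.finrank k V = 2) :
    LinearMap.charpoly (1 : Module.End k V) = (X - C 1) ^ 2 := by
  classical
  let b : Module.Basis (Fin 2) k V := Module.finBasisOfFinrankEq k V hV
  rw [← LinearMap.charpoly_toMatrix (1 : Module.End k V) b, LinearMap.toMatrix_one,
    Matrix.charpoly_one, Fintype.card_fin, map_one]

/-- If the characteristic polynomial of an endomorphism of a plane is `(X - 1)²` after a field
extension, the endomorphism is unipotent. -/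
theorem unipotent_of_charpoly_map294 {k k' : Type*} [Field k] [Field k'] (ι : k →+* k')
    {V : Type*} [AddCommGroup V] [Module k V] [Module.Finite k V]
    (f : Module.End k V) (hf : (LinearMap.charpoly f).map ι = (X - C 1) ^ 2) (x : V) :
    (f - 1) ((f - 1) x) = 0 := by
  have h1 : LinearMap.charpoly f = (X - C 1) ^ 2 := by
    apply Polynomial.map_injective ι ι.injective
    rw [hf]
    simp
  have h2 := LinearMap.aeval_self_charpoly f
  rw [h1, map_pow, map_sub, Polynomial.aeval_X, Polynomial.aeval_C, map_one, pow_two] at h2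
  have h3 := LinearMap.congr_fun h2 x
  rwa [Module.End.mul_apply, LinearMap.zero_apply] at h3

/-- **ResUnram, core form.** -/
theorem resUnram_core294 (hcheb : Fermat.Agent.Lib.Cheb.Spec.ChebotarevStatement)
    (p : ℕ) [Fact p.Prime]
    (ρE : ResidualGaloisRep (ZMod p)) (hirr : ρE.IsIrreducible)
    (W : WeierstrassCurve ℤ) (hΔ : W.Δ ≠ 0)
    (hfrobE : ∀ ℓ : ℕ, ℓ.Prime → ℓ ≠ p → W.IsGoodPrimeFor ℓ →
      ∀ B : ValuationSubring (AlgebraicClosure ℚ), B.LiesOverPrime ℓ →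
        ∀ τ : GQ294, B.IsFrobeniusAt τ ℓ →
          LinearMap.charpoly (ρE.ρ τ)
            = X ^ 2 - C (((W.apOfModel ℓ : ℤ) : ZMod p)) * X + C ((ℓ : ZMod p)))
    (M : ℕ) (hM : M ≠ 0) (hres : W.IsResiduallyModularOfLevel p M)
    (hS29 : ∀ f : CuspForm (CongruenceSubgroup.Gamma0 M) 2, f.IsNormalizedEigenform →
      ∀ (k : Type) [Field k] [CharP k p] (φ : integralClosure ℤ ℂ →+* k),
        ∃ ρ : ResidualGaloisRep k, ρ.IsAttachedTo f φ ∧
          ∀ ℓ : ℕ, ℓ.Prime → ¬ ℓ ∣ M * p → ρ.IsUnramifiedAt ℓ)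
    (q : ℕ) (hq : q.Prime) (hqp : q ≠ p) (hqM : ¬ q ∣ M) :
    ρE.IsUnramifiedAt q := by
  classical
  have hp : p.Prime := Fact.out
  obtain ⟨f, 𝔪, hf, h𝔪, hp𝔪, hcong⟩ := hres
  let _ : Field (integralClosure ℤ ℂ ⧸ 𝔪) := Ideal.Quotient.field 𝔪
  set φ : integralClosure ℤ ℂ →+* (integralClosure ℤ ℂ ⧸ 𝔪) := Ideal.Quotient.mk 𝔪 with hφ
  have hp0 : ((p : ℕ) : integralClosure ℤ ℂ ⧸ 𝔪) = 0 := by
    have : φ (p : integralClosure ℤ ℂ) = 0 := Ideal.Quotient.eq_zero_iff_mem.mpr hp𝔪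
    rwa [map_natCast] at this
  have : CharP (integralClosure ℤ ℂ ⧸ 𝔪) p := (CharP.charP_iff_prime_eq_zero hp).mpr hp0
  obtain ⟨ρf, hatt, hunr⟩ := hS29 f hf (integralClosure ℤ ℂ ⧸ 𝔪) φ
  set ι : ZMod p →+* (integralClosure ℤ ℂ ⧸ 𝔪) := ZMod.castHom (dvd_refl p) _ with hι
  -- the finite set of bad primes
  set S : Finset ℕ := (M * p * W.Δ.natAbs).primeFactors with hS
  have hprod : M * p * W.Δ.natAbs ≠ 0 :=
    mul_ne_zero (mul_ne_zero hM hp.ne_zero) (Int.natAbs_ne_zero.mpr hΔ)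
  have hgoodS : ∀ ℓ : ℕ, ℓ.Prime → ℓ ∉ S → ¬ ℓ ∣ M ∧ ℓ ≠ p ∧ W.IsGoodPrimeFor ℓ := by
    intro ℓ hℓ hℓS
    have hnd : ¬ ℓ ∣ M * p * W.Δ.natAbs := fun hd =>
      hℓS (Nat.mem_primeFactors.mpr ⟨hℓ, hd, hprod⟩)
    refine ⟨fun hd => hnd ((hd.mul_right p).mul_right _), ?_, ?_⟩
    · rintro rfl
      exact hnd ((dvd_mul_left ℓ M).mul_right _)
    · intro hd
      exact hnd (dvd_mul_of_dvd_right (Int.natCast_dvd.mp hd) _)
  -- Frobenius characteristic polynomials agree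
  have hfrob : ∀ ℓ : ℕ, ℓ.Prime → ℓ ∉ S →
      ∀ B : ValuationSubring (AlgebraicClosure ℚ), B.LiesOverPrime ℓ →
        ∀ σ : GQ294, B.IsFrobeniusAt σ ℓ →
          LinearMap.charpoly (ρf.ρ σ) = (LinearMap.charpoly (ρE.ρ σ)).map ι := by
    intro ℓ hℓ hℓS B hB σ hσ
    obtain ⟨hℓM, hℓp, hgood⟩ := hgoodS ℓ hℓ hℓS
    have hℓ0 : ((ℓ : ℕ) : integralClosure ℤ ℂ ⧸ 𝔪) ≠ 0 := by
      intro h0
      have hd : p ∣ ℓ := (CharP.cast_eq_zero_iff (integralClosure ℤ ℂ ⧸ 𝔪) p ℓ).mp h0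
      exact hℓp ((Nat.prime_dvd_prime_iff_eq hp hℓ).mp hd).symm
    obtain ⟨a, ha, hcp⟩ := hatt ℓ hℓ hℓM hℓ0 B hB σ hσ
    obtain ⟨a', ha', hmem⟩ := hcong ℓ hℓ hgood hℓM hℓp
    have haa : a = a' := Subtype.ext (ha.trans ha'.symm)
    have hφa : φ a = ((W.apOfModel ℓ : ℤ) : integralClosure ℤ ℂ ⧸ 𝔪) := by
      rw [haa]
      have := Ideal.Quotient.eq.mpr hmem
      rw [← hφ] at this
      rw [this, map_intCast]
    rw [hcp, hfrobE ℓ hℓ hℓp hgood B hB σ hσ, hφa]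
    simp only [Polynomial.map_add, Polynomial.map_sub, Polynomial.map_mul, Polynomial.map_pow,
      Polynomial.map_X, map_intCast, map_natCast, Polynomial.map_intCast,
      Polynomial.map_natCast]
  have hall := charpoly_eq_of_frob294 hcheb ι ρE ρf S hfrob
  -- the kernel of `ρ_f` acts unipotently on `ρ_E`
  have hunip : ∀ h ∈ ρf.ρ.ker, ∀ x, (ρE.ρ h - 1) ((ρE.ρ h - 1) x) = 0 := by
    intro h hh x
    rw [MonoidHom.mem_ker] at hh
    refine unipotent_of_charpoly_map294 ι (ρE.ρ h) ?_ x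
    rw [← hall h, hh, charpoly_one_of_finrank_two294 ρf.finrank_eq]
  have htriv := eq_one_of_unipotent_normal294 ρE.finrank_eq ρE.ρ
    (fun W' hW' => hirr W' (fun σ x hx => hW' σ x hx)) ρf.ρ.ker hunip
  -- inertia at `q` lies in the kernel of `ρ_f`
  intro A hA σ hσ
  apply htriv
  rw [MonoidHom.mem_ker]
  refine hunr q hq ?_ A hA σ hσ
  intro hd
  rcases (Nat.Prime.dvd_mul hq).mp hd with h | h
  · exact hqM h
  · exact hqp ((Nat.prime_dvd_prime_iff_eq hq hp).mp h)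

end Fermat.Agent.S59.H294
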