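import Fermat.Agent.S59.H934.LevelOpt
import Fermat.Agent.S29
import Fermat.Agent.S58.H273.Hres
import Fermat.Agent.Lib.Cheb.Chebotarev
import Fermat.Agent.S59.H294.ResUnramCore

/-!
# Row S59, cell LO, leaf ResUnram (helper294)

`resUnram : Fermat.Agent.S59.H934.ResUnramStatement` (VERBATIM, unconditional): if a semistable
`W` with `E[p]` irreducible is residually modular of squarefree level `M`, then `E[p]` is
unramified at every prime `q ∤ p M`.

Inputs on main: `Fermat.Agent.S29.result` (residual representation of an eigenform),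
`Fermat.Agent.Lib.Cheb.chebotarev`, `Fermat.Agent.S58.H273.wRes_charpoly_frob`; core
`resUnram_core294` (unipotent normal subgroup of an irreducible plane is trivial).
-/

set_option autoImplicit false

open scoped WeierstrassCurve.Affine

namespace Fermat.Agent.S59.H294

/-- **ResUnram**, general form: any `p` odd, any level `M ≠ 0` (no squarefreeness, no
semistability needed). -/
theorem resUnram_gen294 (p : ℕ) [Fact p.Prime] (hp2 : p ≠ 2)
    (W : WeierstrassCurve ℤ) (hΔ : W.Δ ≠ 0) (hirr : W.ModRepIsIrreducible p)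
    (hcard : Nat.card (Submodule.torsionBy ℤ
      ((W.map (Int.castRingHom ℚ))⁄(AlgebraicClosure ℚ)).Point p) = p ^ 2)
    (hker : GaloisFactorsThroughFiniteLevel
      (WeierstrassCurve.Affine.Point.galoisRepModuleEnd (K := AlgebraicClosure ℚ) ℚ
        (W.map (Int.castRingHom ℚ)) p))
    (M : ℕ) (hM : M ≠ 0) (hres : W.IsResiduallyModularOfLevel p M)
    (q : ℕ) (hq : q.Prime) (hqp : q ≠ p) (hqM : ¬ q ∣ M) :
    ((W.map (Int.castRingHom ℚ)).residualGaloisRepOf p hcard hker).IsUnramifiedAt q :=
  resUnram_core294 Fermat.Agent.Lib.Cheb.chebotarev p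
    ((W.map (Int.castRingHom ℚ)).residualGaloisRepOf p hcard hker)
    (Fermat.Agent.S58.H273.wRes_isIrreducible W hΔ p hirr) W hΔ
    (fun ℓ hℓ hℓp hgood B hB τ hτ =>
      Fermat.Agent.S58.H273.wRes_charpoly_frob W hΔ p hp2 hirr ℓ hℓ hℓp hgood B hB τ hτ)
    M hM hres (fun _f hf _k _ _ φ => Fermat.Agent.S29.result hf Fact.out φ) q hq hqp hqM

/-- **ResUnram** (leaf of cell LO, VERBATIM). -/
theorem resUnram : Fermat.Agent.S59.H934.ResUnramStatement := by
  intro p _ hp W hΔ _hW hirr hcard hker M hM hres q hq hqp hqM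
  have hp2 : p ≠ 2 := by
    rcases hp with rfl | rfl <;> decide
  exact resUnram_gen294 p hp2 W hΔ hirr hcard hker M hM.ne_zero hres q hq hqp hqM

end Fermat.Agent.S59.H294
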