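import Fermat.Agent.S59.H294.ResFlat
import Fermat.Agent.S59.H401.DictFinal

/-!
# Row S59, cell LO, leaf ResFlat, unconditional (helper294)

`resFlat : H934.ResFlatStatement` = `resFlat_of` applied to cell DICT (`H401.dict`, on main).
-/

set_option autoImplicit false

namespace Fermat.Agent.S59.H294

/-- **Leaf ResFlat** of cell LO (`coord/S59.md` §4), unconditional. -/
theorem resFlat : Fermat.Agent.S59.H934.ResFlatStatement :=
  resFlat_of Fermat.Agent.S59.H401.dict

end Fermat.Agent.S59.H294
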