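import Mathlib
import Fermat.Prelude.Def_GaloisRep_Adic
import Fermat.Prelude.Def_CuspForm_HeckeGaloisRepDatum
import Fermat.Agent.S59.H307.Glue
import Fermat.Agent.S58.H273.AbsIrrOdd
import Fermat.Agent.Lib.Cheb.Spec
import Fermat.Agent.S59.H294.ResUnramCore

/-!
# Row S59, cell LO, leaf ResFlat — Brauer–Nesbitt for residual representations (helper294)

* `residual_isEquiv_of_charpoly294` : two residual representations over a field `K` (`2 ≠ 0`)
  with the same characteristic polynomials, one of them irreducible with an involution of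
  determinant `-1`, are equivalent (Carayol–Serre rigidity `H307.isEquiv_of_trace_eq` over the
  local ring `K`).
* `datum_residual_isEquiv294` : the residual representation of a Hecke–Galois datum is the base
  change of any irreducible odd `ρ̄` with Frobenius character `θ`
  (this is the field `hres` of `TW.H959.HeckePkg`).
-/

set_option autoImplicit false

open Polynomial IsLocalRing
open scoped TensorProduct

namespace Fermat.Agent.S59.H294

/-- The trace of an endomorphism of a plane is minus the coefficient of `X` of its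
characteristic polynomial. -/
theorem trace_eq_neg_coeff_charpoly294 {K : Type*} [Field K] {V : Type*} [AddCommGroup V]
    [Module K V] [Module.Finite K V] (hV : Module.finrank K V = 2) (T : Module.End K V) :
    LinearMap.trace K V T = - (LinearMap.charpoly T).coeff 1 := by
  classical
  let b : Module.Basis (Fin 2) K V := Module.finBasisOfFinrankEq K V hV
  rw [LinearMap.trace_eq_matrix_trace K b, Matrix.trace_eq_neg_charpoly_coeff,
    LinearMap.charpoly_toMatrix]
  simp

/-- An involution of determinant `-1` of a plane has trace `0`. -/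
theorem trace_eq_zero_of_involution294 {K : Type*} [Field K] {V : Type*} [AddCommGroup V]
    [Module K V] [Module.Finite K V] (hV : Module.finrank K V = 2) (T : Module.End K V)
    (hT : T * T = 1) (hdet : LinearMap.det T = -1) : LinearMap.trace K V T = 0 := by
  classical
  let b : Module.Basis (Fin 2) K V := Module.finBasisOfFinrankEq K V hV
  have hcp : LinearMap.charpoly T = X ^ 2 - C (LinearMap.trace K V T) * X + C (LinearMap.det T) := by
    rw [← LinearMap.charpoly_toMatrix T b, Matrix.charpoly_fin_two,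
      ← LinearMap.trace_eq_matrix_trace K b T, LinearMap.det_toMatrix b T]
  have h := LinearMap.aeval_self_charpoly T
  rw [hcp, hdet] at h
  simp only [map_add, map_sub, map_mul, map_pow, aeval_X, aeval_C, map_neg, map_one] at h
  rw [pow_two, hT] at h
  -- `1 - tr • T - 1 = 0`
  have h1 : algebraMap K (Module.End K V) (LinearMap.trace K V T) * T = 0 := by
    have : (1 : Module.End K V) - algebraMap K (Module.End K V) (LinearMap.trace K V T) * T
        + -1 = 0 := h
    have h' : algebraMap K (Module.End K V) (LinearMap.trace K V T) * T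
        = -((1 : Module.End K V) - algebraMap K (Module.End K V) (LinearMap.trace K V T) * T
          + -1) := by abel
    rw [h', this, neg_zero]
  have h2 := congrArg (fun f => f * T) h1
  simp only [mul_assoc, hT, mul_one, zero_mul] at h2
  -- `algebraMap tr = 0`
  have hinj : Function.Injective (algebraMap K (Module.End K V)) := by
    have : Nontrivial V := Module.nontrivial_of_finrank_pos (R := K) (by rw [hV]; norm_num)
    exact (algebraMap K (Module.End K V)).injective
  exact hinj (by rw [h2, map_zero])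

/-- **Brauer–Nesbitt in the odd irreducible case**, for residual representations. -/
theorem residual_isEquiv_of_charpoly294 {K : Type} [Field K] (h2 : (2 : K) ≠ 0)
    (ρ₁ ρ₂ : ResidualGaloisRep K)
    (hcp : ∀ σ, LinearMap.charpoly (ρ₁.ρ σ) = LinearMap.charpoly (ρ₂.ρ σ))
    (hirr : ρ₁.IsIrreducible) (c : GQ294) (hcc : c * c = 1)
    (hdet : LinearMap.det (ρ₁.ρ c) = -1) :
    ρ₁.IsEquiv ρ₂ := by
  have hu : IsUnit (2 : K) := isUnit_iff_ne_zero.mpr h2
  have htr : ∀ σ, (GaloisRepAdic.ofResidualGaloisRep ρ₁).trace σ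
      = (GaloisRepAdic.ofResidualGaloisRep ρ₂).trace σ := by
    intro σ
    show LinearMap.trace K ρ₁.V (ρ₁.ρ σ) = LinearMap.trace K ρ₂.V (ρ₂.ρ σ)
    rw [trace_eq_neg_coeff_charpoly294 ρ₁.finrank_eq, trace_eq_neg_coeff_charpoly294 ρ₂.finrank_eq,
      hcp σ]
  have hc : (GaloisRepAdic.ofResidualGaloisRep ρ₁).trace c = 0 := by
    show LinearMap.trace K ρ₁.V (ρ₁.ρ c) = 0
    refine trace_eq_zero_of_involution294 ρ₁.finrank_eq (ρ₁.ρ c) ?_ hdet
    rw [← map_mul, hcc, map_one]
  have hirr' : (GaloisRepAdic.ofResidualGaloisRep ρ₁).residual.IsIrreducible := fun L hL =>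
    Fermat.Agent.S58.H273.eq_bot_or_eq_top_of_involution h2 ρ₁.finrank_eq ρ₁.ρ hirr c hcc hdet
      (ResidueField K) L hL
  obtain ⟨e⟩ := Fermat.Agent.S59.H307.isEquiv_of_trace_eq hu
    (GaloisRepAdic.ofResidualGaloisRep ρ₁) (GaloisRepAdic.ofResidualGaloisRep ρ₂) htr c hcc hc
    hirr'
  exact ⟨{ toLinearEquiv := e.toLinearEquiv, map_apply := e.map_apply }⟩

/-- **The residual representation of a Hecke–Galois datum** is the base change of any
irreducible odd `ρ̄` with Frobenius character `θ` (`hRF` is `G4.ResFrobCond ρbar θ` unfolded). -/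
theorem datum_residual_isEquiv294 (hcheb : Fermat.Agent.Lib.Cheb.Spec.ChebotarevStatement)
    {N : ℕ} [NeZero N] {S : Finset ℕ}
    {𝒪 : Type} [CommRing 𝒪] [IsDomain 𝒪] [IsDiscreteValuationRing 𝒪]
    [IsAdicComplete (maximalIdeal 𝒪) 𝒪]
    {θ : CuspForm.heckeAlgebra N 2 (↑S : Set ℕ) →+* ResidueField 𝒪}
    {T : Type} [CommRing T] [IsLocalRing T] [IsNoetherianRing T]
    [IsAdicComplete (maximalIdeal T) T] [Algebra 𝒪 T] [IsLocalHom (algebraMap 𝒪 T)]
    [Module.Finite 𝒪 T] [Module.Free 𝒪 T]
    (H : CuspForm.HeckeGaloisRepDatum N (↑S : Set ℕ) 𝒪 θ T)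
    (h2 : (2 : ResidueField 𝒪) ≠ 0)
    (ρbar : ResidualGaloisRep (ResidueField 𝒪))
    (hRF : ∀ (ℓ : ℕ) (hℓ : ℓ.Prime) (hℓN : ¬ ℓ ∣ N) (hℓS : ℓ ∉ (↑S : Set ℕ)),
      ∀ B : ValuationSubring (AlgebraicClosure ℚ), B.LiesOverPrime ℓ →
        ∀ σ : GQ294, B.IsFrobeniusAt σ ℓ →
          LinearMap.charpoly (ρbar.ρ σ) =
            X ^ 2 - C (θ (CuspForm.heckeAlgebra.T hℓ hℓN hℓS)) * X + C ((ℓ : ResidueField 𝒪)))
    (hirr : ρbar.IsIrreducible) (c : GQ294) (hcc : c * c = 1)
    (hdet : LinearMap.det (ρbar.ρ c) = -1) :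
    H.ρ.residual.IsEquiv (ρbar.baseChangeAlong (ResidueField.map (algebraMap 𝒪 T))) := by
  classical
  set φ : ResidueField 𝒪 →+* ResidueField T := ResidueField.map (algebraMap 𝒪 T) with hφ
  letI : Algebra (ResidueField 𝒪) (ResidueField T) := φ.toAlgebra
  have h2K : (2 : ResidueField T) ≠ 0 := by
    intro h
    apply h2
    apply φ.injective
    rw [map_ofNat, h, map_zero]
  have hirr₁ : (ρbar.baseChange (ResidueField T)).IsIrreducible := fun L hL =>
    Fermat.Agent.S58.H273.eq_bot_or_eq_top_of_involution h2 ρbar.finrank_eq ρbar.ρ hirr c hcc hdet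
      (ResidueField T) L hL
  have hdet₁ : LinearMap.det ((ρbar.baseChange (ResidueField T)).ρ c) = -1 := by
    have h1 : (ρbar.baseChange (ResidueField T)).ρ c = (ρbar.ρ c).baseChange (ResidueField T) :=
      rfl
    rw [h1, LinearMap.det_baseChange, hdet, map_neg, map_one]
  -- the finite set of bad primes
  have hN : N ≠ 0 := NeZero.ne N
  have hfrob : ∀ ℓ : ℕ, ℓ.Prime → ℓ ∉ S ∪ N.primeFactors →
      ∀ B : ValuationSubring (AlgebraicClosure ℚ), B.LiesOverPrime ℓ →
        ∀ σ : GQ294, B.IsFrobeniusAt σ ℓ →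
          LinearMap.charpoly ((ρbar.baseChange (ResidueField T)).ρ σ)
            = (LinearMap.charpoly (H.ρ.residual.ρ σ)).map (RingHom.id (ResidueField T)) := by
    intro ℓ hℓ hℓS' B hB σ hσ
    rw [Finset.mem_union, not_or] at hℓS'
    have hℓS : ℓ ∉ (↑S : Set ℕ) := fun h => hℓS'.1 (Finset.mem_coe.mp h)
    have hℓN : ¬ ℓ ∣ N := fun h => hℓS'.2 (Nat.mem_primeFactors.mpr ⟨hℓ, h, hN⟩)
    have e1 : LinearMap.charpoly ((ρbar.baseChange (ResidueField T)).ρ σ)
        = LinearMap.charpoly ((ρbar.ρ σ).baseChange (ResidueField T)) := rfl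
    have e2 : LinearMap.charpoly (H.ρ.residual.ρ σ)
        = LinearMap.charpoly ((H.ρ.ρ σ).baseChange (ResidueField T)) := rfl
    rw [Polynomial.map_id, e1, e2, LinearMap.charpoly_baseChange, LinearMap.charpoly_baseChange,
      hRF ℓ hℓ hℓN hℓS B hB σ hσ, H.charpoly_frob ℓ hℓ hℓN hℓS B hB σ hσ,
      IsLocalRing.ResidueField.algebraMap_eq]
    have hπ := H.residue_π (CuspForm.heckeAlgebra.T hℓ hℓN hℓS)
    have halg : algebraMap (ResidueField 𝒪) (ResidueField T) = φ := rfl
    simp only [Polynomial.map_add, Polynomial.map_sub, Polynomial.map_mul, Polynomial.map_pow,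
      Polynomial.map_X, Polynomial.map_C, map_natCast, Polynomial.map_natCast]
    rw [hπ, halg]
  have hcp : ∀ σ, LinearMap.charpoly ((ρbar.baseChange (ResidueField T)).ρ σ)
      = LinearMap.charpoly (H.ρ.residual.ρ σ) := by
    intro σ
    have h := charpoly_eq_of_frob294 hcheb (RingHom.id (ResidueField T)) H.ρ.residual
      (ρbar.baseChange (ResidueField T)) (S ∪ N.primeFactors) hfrob σ
    rwa [Polynomial.map_id] at h
  obtain ⟨e⟩ := residual_isEquiv_of_charpoly294 h2K (ρbar.baseChange (ResidueField T))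
    H.ρ.residual hcp hirr₁ c hcc hdet₁
  exact ⟨e.symm⟩

end Fermat.Agent.S59.H294
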