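import Fermat.Agent.S59.H934.LevelOpt
import Fermat.Agent.S59.G4.Assembly
import Fermat.Agent.S59.G4.H547.Red
import Fermat.Agent.S59.G4.H109.Points
import Fermat.Agent.S59.G4.H532.TraceFn
import Fermat.Agent.S59.G4.H109.Res2
import Fermat.Agent.S59.H659.FlatClosed
import Fermat.Agent.S58.H273.Hres
import Fermat.Agent.Lib.Cheb.Chebotarev
import Fermat.Agent.S23.Cap.Main
import Fermat.Agent.S30.Chain.FromT
import Fermat.Agent.S30.H694.TorsionRelOfNodes
import Fermat.Agent.S18.Mod.H216.NodeMod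
import Fermat.Agent.S18.H438.NodeAlg
import Fermat.Agent.S59.TW.H659.Clean.S32
import Fermat.Agent.S59.H294.ResFlatIrr
import Fermat.Agent.S59.H294.ResFlatBN
import Fermat.Agent.S59.H294.ResFlatHopf
import Fermat.Agent.S59.H294.ResFlatEmb

/-!
# Row S59, cell LO, leaf ResFlat (helper294)

`resFlat_of : Arch.DictStatement → H934.ResFlatStatement`: if a semistable `W` with `E[p]`
irreducible is residually modular of squarefree level `M` prime to `p`, then `E[p]` is flat at `p`.

Chain (everything on main except cell DICT):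
* DICT gives `𝒪`, `ι : 𝔽_p → k`, `χ : 𝕋 → 𝒪` whose reduction `θ` is the Frobenius character of
  `E[p] ⊗ k`;
* `θ` is non-Eisenstein (`absIrr_baseChangeAlong294`), so layer G4 (`g4_294`) gives a Hecke–Galois
  datum `H` on `T = heckeLocal`;
* row S32 on the realizer-free chain (`TW.H659.Clean.s32Statement_clean659`): `H.ρ` is flat
  at `p`;
* Brauer–Nesbitt (`datum_residual_isEquiv294`): `H.ρ.residual ≅ E[p] ⊗ k_T`;
* `E[p] ↪ E[p] ⊗ k_T ≅ H.ρ.residual`, and Hopf models pass to subquotients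
  (`H659.hopfSubquot_closed`).
-/

set_option autoImplicit false
set_option linter.style.haveILetI false

open Polynomial IsLocalRing
open scoped TensorProduct WeierstrassCurve.Affine

namespace Fermat.Agent.S59.H294

open Fermat.Agent.S59 Fermat.Agent.S59.Arch

/-- **Layer G4, assembled** (all pieces are on main).  The row-S30 input is taken from the plain
chain top (`S30.Chain.result_of_T`), not from the statement module. -/
theorem g4_294 : G4.G4Statement :=
  G4.g4_of
    (fun p _ N _ S hpS hNS 𝒪' _ _ _ _ _ _ hp𝒪' χ =>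
      Fermat.Agent.S30.Chain.result_of_T
        (Fermat.Agent.S30.H694.torsionRelations_of_nodes
          (fun M _ _ _ hℓM A hA => Fermat.Agent.S18.Mod.H216.node_mod M hℓM A hA)
          (fun M => Fermat.Agent.S18.H438.node_alg M))
        p N S hpS hNS 𝒪' hp𝒪' χ)
    G4.H547.red G4.H109.points G4.H532.traceFn
    G4.H109.resStatement2

/-- **Row S32** (a Hecke–Galois datum of level `N`, `p ∤ N`, `p` odd, is flat at `p`), taken from
the realizer-free plain chain `TW.H659.Clean.s32Statement_clean659` (helper659), not from the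
statement module `S32.lean` nor from `S32/OfS19.lean`: their closure contains
`S31/H982/TracePow.lean`, which collides (`powTr.eq_def`) with `S31/H22/PowTr.lean` of layer G4. -/
theorem s32_294 {p : ℕ} {N : ℕ} [NeZero N] {S : Finset ℕ}
    {𝒪 : Type} [CommRing 𝒪] [IsDomain 𝒪] [IsDiscreteValuationRing 𝒪]
    [IsAdicComplete (IsLocalRing.maximalIdeal 𝒪) 𝒪]
    {θ : CuspForm.heckeAlgebra N 2 (↑S : Set ℕ) →+* IsLocalRing.ResidueField 𝒪}
    {T : Type} [CommRing T] [IsLocalRing T] [IsNoetherianRing T]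
    [IsAdicComplete (IsLocalRing.maximalIdeal T) T] [Algebra 𝒪 T] [IsLocalHom (algebraMap 𝒪 T)]
    [Module.Finite 𝒪 T] [Module.Free 𝒪 T]
    [Finite (IsLocalRing.ResidueField 𝒪)] [CharZero 𝒪]
    (hp : p.Prime) (hp2 : p ≠ 2) (hp𝒪 : (p : 𝒪) ∈ IsLocalRing.maximalIdeal 𝒪) (hpN : ¬ p ∣ N)
    (hpS : p ∈ S) (hNS : ∀ q : ℕ, q.Prime → q ∣ N → q ∈ S)
    (H : CuspForm.HeckeGaloisRepDatum N (↑S : Set ℕ) 𝒪 θ T) :
    H.ρ.IsFlatAt p :=
  Fermat.Agent.S59.TW.H659.Clean.s32Statement_clean659 hp hp2 hp𝒪 hpN hpS hNS H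

/-- **ResFlat from the datum**: the core of the leaf, for any coefficient data as provided by
cell DICT. -/
theorem resFlat_of_dict294 (p : ℕ) [Fact p.Prime] (hp2 : p ≠ 2)
    (W : WeierstrassCurve ℤ) (hΔ : W.Δ ≠ 0) (hirr : W.ModRepIsIrreducible p)
    (hcard : Nat.card (Submodule.torsionBy ℤ
      ((W.map (Int.castRingHom ℚ))⁄(AlgebraicClosure ℚ)).Point p) = p ^ 2)
    (hker : GaloisFactorsThroughFiniteLevel
      (WeierstrassCurve.Affine.Point.galoisRepModuleEnd (K := AlgebraicClosure ℚ) ℚ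
        (W.map (Int.castRingHom ℚ)) p))
    (M : ℕ) [NeZero M] (hpM : ¬ p ∣ M) (S : Finset ℕ) (hpS : p ∈ S)
    (hNS : ∀ q : ℕ, q.Prime → q ∣ M → q ∈ S)
    (𝒪 : Type) [CommRing 𝒪] [IsDomain 𝒪] [IsDiscreteValuationRing 𝒪]
    [IsAdicComplete (maximalIdeal 𝒪) 𝒪] [Finite (ResidueField 𝒪)] [CharZero 𝒪]
    (hp𝒪 : (p : 𝒪) ∈ maximalIdeal 𝒪)
    (ι : ZMod p →+* ResidueField 𝒪)
    (χ : CuspForm.heckeAlgebra M 2 (↑S : Set ℕ) →+* 𝒪)
    (hRF : G4.ResFrobCond (curveResidual p W hcard hker ι) ((residue 𝒪).comp χ)) :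
    (GaloisRepAdic.ofResidualGaloisRep
      ((W.map (Int.castRingHom ℚ)).residualGaloisRepOf p hcard hker)).IsFlatAt p := by
  classical
  have hp : p.Prime := Fact.out
  -- the residual representation and its oddness
  set ρE : ResidualGaloisRep (ZMod p) :=
    (W.map (Int.castRingHom ℚ)).residualGaloisRepOf p hcard hker with hρE
  have hirrE : ρE.IsIrreducible := Fermat.Agent.S58.H273.wRes_isIrreducible W hΔ p hirr
  have hdetE : LinearMap.det (ρE.ρ complexConjugation) = -1 :=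
    Fermat.Agent.S58.H273.wRes_det_involution W hΔ p hp2 hirr _
      complexConjugation_mul_self
      Fermat.Agent.S59.G4.H307.complexConjugation_ne_one
  have h2p : (2 : ZMod p) ≠ 0 := Fermat.Agent.S58.H273.two_ne_zero_zmod p hp2
  set ρk : ResidualGaloisRep (ResidueField 𝒪) := curveResidual p W hcard hker ι with hρk
  have habs : ρk.IsAbsolutelyIrreducible :=
    absIrr_baseChangeAlong294 ι h2p ρE hirrE _
      complexConjugation_mul_self hdetE
  have hirrk : ρk.IsIrreducible := Fermat.Agent.S59.G4.H307.isIrreducible_of_absIrr ρk habs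
  have h2k : (2 : ResidueField 𝒪) ≠ 0 := by
    intro h
    apply h2p
    apply ι.injective
    rw [map_ofNat, h, map_zero]
  have hdetk : LinearMap.det (ρk.ρ complexConjugation) = -1 := by
    have h1 := det_baseChangeAlong294 ι ρE complexConjugation
    rw [hdetE, map_neg, map_one] at h1
    exact h1
  -- the datum
  have hθ : G4.NonEisenstein ((residue 𝒪).comp χ) := ⟨ρk, habs, hRF⟩
  haveI : Fact (CuspForm.HasIntegralStructure M 2) :=
    ⟨Fermat.Agent.S23.Cap.hasIntegralStructure M 2⟩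
  obtain ⟨H, -⟩ := g4_294 p hp2 M S hpS hNS 𝒪 hp𝒪 ((residue 𝒪).comp χ) hθ
  have hflat : H.ρ.IsFlatAt p := s32_294 hp hp2 hp𝒪 hpM hpS hNS H
  -- Brauer–Nesbitt
  obtain ⟨e⟩ := datum_residual_isEquiv294 Fermat.Agent.Lib.Cheb.chebotarev H h2k ρk hRF hirrk
    complexConjugation
    complexConjugation_mul_self hdetk
  -- the embedding
  obtain ⟨i1, hi1, hi1σ⟩ : ∃ i : ρE.V →+ ρk.V, Function.Injective i ∧
      ∀ (σ : AlgebraicClosure ℚ ≃ₐ[ℚ] AlgebraicClosure ℚ) (v : ρE.V),
        i (ρE.ρ σ v) = ρk.ρ σ (i v) := exists_embedding_baseChangeAlong294 ι ρE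
  obtain ⟨i2, hi2, hi2σ⟩ := exists_embedding_baseChangeAlong294
    (ResidueField.map (algebraMap 𝒪 (CuspForm.heckeLocal M (↑S : Set ℕ) 𝒪 ((residue 𝒪).comp χ))))
    ρk
  have hSub := Fermat.Agent.S59.H659.hopfSubquot_closed p
  refine isFlatAt_ofResidual_of_embedding294 hSub H.ρ hflat ρE
    ((e.symm.toLinearEquiv.toLinearMap.toAddMonoidHom.comp i2).comp i1) ?_ ?_
  · exact (e.symm.toLinearEquiv.injective.comp hi2).comp hi1
  · intro σ v
    show e.symm.toLinearEquiv (i2 (i1 (ρE.ρ σ v)))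
      = H.ρ.residual.ρ σ (e.symm.toLinearEquiv (i2 (i1 v)))
    rw [hi1σ, hi2σ, e.symm.map_apply]

/-- **ResFlat** (leaf of cell LO) from cell DICT. -/
theorem resFlat_of (hDict : DictStatement) : Fermat.Agent.S59.H934.ResFlatStatement := by
  intro p _ hp W hΔ hW hirr hcard hker M hM hres hpM
  have hpr : p.Prime := Fact.out
  have hp2 : p ≠ 2 := by
    rcases hp with rfl | rfl <;> decide
  haveI : NeZero M := ⟨hM.ne_zero⟩
  have hpS : p ∈ insert p M.primeFactors := Finset.mem_insert_self _ _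
  have hS : ∀ q ∈ insert p M.primeFactors, q.Prime := by
    intro q hq
    rcases Finset.mem_insert.mp hq with rfl | h
    · exact hpr
    · exact Nat.prime_of_mem_primeFactors h
  have hNS : ∀ q : ℕ, q.Prime → q ∣ M → q ∈ insert p M.primeFactors := fun q hq hqM =>
    Finset.mem_insert_of_mem (Nat.mem_primeFactors.mpr ⟨hq, hqM, hM.ne_zero⟩)
  obtain ⟨𝒪, _, _, _, _, _, _, ι, χ, hp𝒪, -, hRF⟩ :=
    hDict p hp2 W hΔ hW hirr hcard hker M (insert p M.primeFactors) hpS hS hNS hres
  exact resFlat_of_dict294 p hp2 W hΔ hirr hcard hker M hpM (insert p M.primeFactors) hpS hNS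
    𝒪 hp𝒪 ι χ hRF

end Fermat.Agent.S59.H294
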